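/-
Programme JAC (S25), work package A1: two-term Cech module theory (helper31; statement list by
helper36, `Cech/Stmts.lean` on branch `origin/helper36`, report #187).
Pure module theory over a commutative ring `B`; no schemes, no curves.  Mathlib only.

A "Cech pair" is a pair of `B`-linear maps `ρ₀ : M₀ → N`, `ρ₁ : M₁ → N`.
`H⁰ = {(x, y) | ρ₀ x = ρ₁ y}`, `H¹ = N / (range ρ₀ + range ρ₁)`.

Contents (names and statements exactly as in the statement list):
* (A1.1) `h1BaseChangeEquiv` : `B' ⊗ H¹ ≃ H¹(base change)` (right exactness);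
* (A1.2) `exists_retraction_of_h1_eq_zero`, `h0_projective_of_h1_eq_zero`, `h0BaseChangeMap`,
  `h0BaseChangeMap_bijective` (`H¹ = 0`, `N` flat: `H⁰` commutes with base change);
* (A1.3) `subsingleton_of_forall_residueField_tensor` (Nakayama over all maximal ideals),
  `cechD_surjective_of_fibrewise`;
* (A1.4a) `subsingleton_of_projective_of_fibres` : a projective module (NOT assumed finite) all of
  whose fibres at maximal ideals vanish is zero;
* (A1.5) `exists_basicOpen_surjective`, `bijective_of_surjective_of_finrank_eq`;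
* (A1.6) the sandwich sequence `0 → H⁰ → H⁰' → M₁'/M₁ → H¹ → H¹' → 0`.
(A1.4b) `finite_of_projective_of_finrank_fibres` is in `Cech/ProjFinite31.lean`.
-/
import Mathlib

set_option autoImplicit false

open TensorProduct

universe u

namespace Fermat.Agent.JAC.Cech

variable {B : Type u} [CommRing B]
variable {M₀ M₁ N : Type u} [AddCommGroup M₀] [AddCommGroup M₁] [AddCommGroup N]
variable [Module B M₀] [Module B M₁] [Module B N]

/-- The Cech differential `(x, y) ↦ ρ₀ x - ρ₁ y`. -/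
def cechD (ρ₀ : M₀ →ₗ[B] N) (ρ₁ : M₁ →ₗ[B] N) : (M₀ × M₁) →ₗ[B] N :=
  ρ₀.coprod (-ρ₁)

/-- `H⁰` of a Cech pair. -/
def H0 (ρ₀ : M₀ →ₗ[B] N) (ρ₁ : M₁ →ₗ[B] N) : Submodule B (M₀ × M₁) :=
  LinearMap.ker (cechD ρ₀ ρ₁)

/-- `H¹` of a Cech pair. -/
abbrev H1 (ρ₀ : M₀ →ₗ[B] N) (ρ₁ : M₁ →ₗ[B] N) : Type u :=
  N ⧸ LinearMap.range (cechD ρ₀ ρ₁)

variable (ρ₀ : M₀ →ₗ[B] N) (ρ₁ : M₁ →ₗ[B] N)

theorem cechD_apply (z : M₀ × M₁) : cechD ρ₀ ρ₁ z = ρ₀ z.1 - ρ₁ z.2 := by
  simp [cechD, sub_eq_add_neg]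

theorem mem_H0 (z : M₀ × M₁) : z ∈ H0 ρ₀ ρ₁ ↔ ρ₀ z.1 = ρ₁ z.2 := by
  rw [H0, LinearMap.mem_ker, cechD_apply, sub_eq_zero]

theorem left_mem_range_cechD (x : M₀) : ρ₀ x ∈ LinearMap.range (cechD ρ₀ ρ₁) :=
  ⟨(x, 0), by simp [cechD_apply]⟩

theorem right_mem_range_cechD (y : M₁) : ρ₁ y ∈ LinearMap.range (cechD ρ₀ ρ₁) :=
  ⟨(0, -y), by simp [cechD_apply]⟩

section BaseChange

variable (B' : Type u) [CommRing B'] [Algebra B B']

theorem cechD_baseChange_tmul (b : B') (z : M₀ × M₁) :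
    cechD (ρ₀.baseChange B') (ρ₁.baseChange B') (b ⊗ₜ[B] z.1, b ⊗ₜ[B] z.2) =
      b ⊗ₜ[B] cechD ρ₀ ρ₁ z := by
  simp [cechD_apply, TensorProduct.tmul_sub]

/-- forward map of `h1BaseChangeEquiv`. -/
noncomputable def h1BaseChangeFwd :
    (B' ⊗[B] H1 ρ₀ ρ₁) →ₗ[B'] H1 (ρ₀.baseChange B') (ρ₁.baseChange B') :=
  LinearMap.liftBaseChange B'
    ((LinearMap.range (cechD ρ₀ ρ₁)).liftQ
      (((LinearMap.range (cechD (ρ₀.baseChange B') (ρ₁.baseChange B'))).mkQ.restrictScalars B) ∘ₗ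
        (TensorProduct.mk B B' N 1))
      (by
        rintro _ ⟨z, rfl⟩
        rw [LinearMap.mem_ker, LinearMap.comp_apply, LinearMap.restrictScalars_apply,
          Submodule.mkQ_apply, Submodule.Quotient.mk_eq_zero, TensorProduct.mk_apply,
          ← cechD_baseChange_tmul]
        exact LinearMap.mem_range_self _ _))

theorem h1BaseChangeFwd_tmul (b : B') (n : N) :
    h1BaseChangeFwd ρ₀ ρ₁ B' (b ⊗ₜ[B] (Submodule.Quotient.mk n : H1 ρ₀ ρ₁)) =
      Submodule.Quotient.mk (b ⊗ₜ[B] n) := by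
  simp only [h1BaseChangeFwd, LinearMap.liftBaseChange_tmul, Submodule.liftQ_apply,
    LinearMap.comp_apply, LinearMap.restrictScalars_apply, Submodule.mkQ_apply,
    TensorProduct.mk_apply]
  rw [← Submodule.Quotient.mk_smul, TensorProduct.smul_tmul', smul_eq_mul, mul_one]

/-- backward map of `h1BaseChangeEquiv`. -/
noncomputable def h1BaseChangeBwd :
    H1 (ρ₀.baseChange B') (ρ₁.baseChange B') →ₗ[B'] (B' ⊗[B] H1 ρ₀ ρ₁) :=
  (LinearMap.range (cechD (ρ₀.baseChange B') (ρ₁.baseChange B'))).liftQ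
    ((LinearMap.range (cechD ρ₀ ρ₁)).mkQ.baseChange B')
    (by
      rintro _ ⟨⟨a, b⟩, rfl⟩
      rw [LinearMap.mem_ker, cechD_apply, map_sub]
      have h0 : (LinearMap.range (cechD ρ₀ ρ₁)).mkQ ∘ₗ ρ₀ = 0 := by
        ext x
        simpa using left_mem_range_cechD ρ₀ ρ₁ x
      have h1 : (LinearMap.range (cechD ρ₀ ρ₁)).mkQ ∘ₗ ρ₁ = 0 := by
        ext y
        simpa using right_mem_range_cechD ρ₀ ρ₁ y
      have e0 : ((LinearMap.range (cechD ρ₀ ρ₁)).mkQ.baseChange B') (ρ₀.baseChange B' a) = 0 := by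
        rw [← LinearMap.comp_apply, ← LinearMap.baseChange_comp, h0, LinearMap.baseChange_zero,
          LinearMap.zero_apply]
      have e1 : ((LinearMap.range (cechD ρ₀ ρ₁)).mkQ.baseChange B') (ρ₁.baseChange B' b) = 0 := by
        rw [← LinearMap.comp_apply, ← LinearMap.baseChange_comp, h1, LinearMap.baseChange_zero,
          LinearMap.zero_apply]
      rw [e0, e1, sub_zero])

theorem h1BaseChangeBwd_mk_tmul (b : B') (n : N) :
    h1BaseChangeBwd ρ₀ ρ₁ B' (Submodule.Quotient.mk (b ⊗ₜ[B] n)) =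
      b ⊗ₜ[B] (Submodule.Quotient.mk n : H1 ρ₀ ρ₁) := by
  simp [h1BaseChangeBwd]

/-- (A1.1) `H¹` commutes with arbitrary base change. -/
noncomputable def h1BaseChangeEquiv :
    (B' ⊗[B] H1 ρ₀ ρ₁) ≃ₗ[B'] H1 (ρ₀.baseChange B') (ρ₁.baseChange B') :=
  LinearEquiv.ofLinearMap (h1BaseChangeFwd ρ₀ ρ₁ B') (h1BaseChangeBwd ρ₀ ρ₁ B')
    (by
      apply Submodule.linearMap_qext
      apply TensorProduct.AlgebraTensorModule.ext
      intro b n
      simp only [LinearMap.comp_apply, Submodule.mkQ_apply, LinearMap.id_apply]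
      rw [h1BaseChangeBwd_mk_tmul, h1BaseChangeFwd_tmul])
    (by
      apply TensorProduct.AlgebraTensorModule.ext
      intro b q
      obtain ⟨n, rfl⟩ := Submodule.Quotient.mk_surjective _ q
      simp only [LinearMap.comp_apply, LinearMap.id_apply]
      rw [h1BaseChangeFwd_tmul, h1BaseChangeBwd_mk_tmul])

/-- (A1.2a) -/
theorem exists_retraction_of_h1_eq_zero [Module.Projective B N]
    (h : Function.Surjective (cechD ρ₀ ρ₁)) :
    ∃ r : (M₀ × M₁) →ₗ[B] H0 ρ₀ ρ₁, ∀ x : H0 ρ₀ ρ₁, r x = x := by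
  obtain ⟨s, hs⟩ := Module.projective_lifting_property (cechD ρ₀ ρ₁) LinearMap.id h
  have hs' : ∀ n, cechD ρ₀ ρ₁ (s n) = n := fun n => LinearMap.congr_fun hs n
  refine ⟨LinearMap.codRestrict (H0 ρ₀ ρ₁) (LinearMap.id - s ∘ₗ cechD ρ₀ ρ₁) ?_, ?_⟩
  · intro z
    rw [H0, LinearMap.mem_ker, LinearMap.sub_apply, map_sub, LinearMap.id_apply,
      LinearMap.comp_apply, hs', sub_self]
  · intro x
    apply Subtype.ext
    have hx : cechD ρ₀ ρ₁ (x : M₀ × M₁) = 0 := x.2
    simp [LinearMap.codRestrict_apply, hx]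

/-- (A1.2b) -/
theorem h0_projective_of_h1_eq_zero [Module.Projective B M₀] [Module.Projective B M₁]
    [Module.Projective B N] (h : Function.Surjective (cechD ρ₀ ρ₁)) :
    Module.Projective B (H0 ρ₀ ρ₁) := by
  obtain ⟨r, hr⟩ := exists_retraction_of_h1_eq_zero ρ₀ ρ₁ h
  exact Module.Projective.of_split (H0 ρ₀ ρ₁).subtype r (LinearMap.ext fun x => by simpa using hr x)

/-- The `B`-linear map `H⁰ → H⁰(base change)`, `(x, y) ↦ (1 ⊗ x, 1 ⊗ y)`. -/
noncomputable def h0ToBaseChange :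
    H0 ρ₀ ρ₁ →ₗ[B] H0 (ρ₀.baseChange B') (ρ₁.baseChange B') where
  toFun z := ⟨((1 : B') ⊗ₜ[B] z.1.1, (1 : B') ⊗ₜ[B] z.1.2), by
    have hz : cechD ρ₀ ρ₁ (z : M₀ × M₁) = 0 := z.2
    rw [H0, LinearMap.mem_ker, cechD_baseChange_tmul, hz, TensorProduct.tmul_zero]⟩
  map_add' z w := by
    apply Subtype.ext
    simp [TensorProduct.tmul_add]
  map_smul' b z := by
    apply Subtype.ext
    simp [TensorProduct.tmul_smul]

/-- The comparison map `B' ⊗ H⁰ → H⁰(base change)`. -/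
noncomputable def h0BaseChangeMap :
    (B' ⊗[B] H0 ρ₀ ρ₁) →ₗ[B'] H0 (ρ₀.baseChange B') (ρ₁.baseChange B') :=
  LinearMap.liftBaseChange B' (h0ToBaseChange ρ₀ ρ₁ B')

theorem h0BaseChangeMap_tmul (b : B') (z : H0 ρ₀ ρ₁) :
    ((h0BaseChangeMap ρ₀ ρ₁ B' (b ⊗ₜ[B] z) : H0 (ρ₀.baseChange B') (ρ₁.baseChange B')) :
      (B' ⊗[B] M₀) × (B' ⊗[B] M₁)) = (b ⊗ₜ[B] z.1.1, b ⊗ₜ[B] z.1.2) := by
  simp [h0BaseChangeMap, h0ToBaseChange, TensorProduct.smul_tmul']

theorem coe_h0BaseChangeMap (w : B' ⊗[B] H0 ρ₀ ρ₁) :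
    ((h0BaseChangeMap ρ₀ ρ₁ B' w : H0 (ρ₀.baseChange B') (ρ₁.baseChange B')) :
      (B' ⊗[B] M₀) × (B' ⊗[B] M₁)) =
      TensorProduct.prodRight B B B' M₀ M₁ ((H0 ρ₀ ρ₁).subtype.lTensor B' w) := by
  induction w using TensorProduct.induction_on with
  | zero => simp
  | tmul b z =>
    rw [h0BaseChangeMap_tmul, LinearMap.lTensor_tmul, Submodule.subtype_apply]
    rw [show (z : M₀ × M₁) = ((z : M₀ × M₁).1, (z : M₀ × M₁).2) from rfl,
      TensorProduct.prodRight_tmul]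
  | add x y hx hy =>
    rw [map_add, Submodule.coe_add, hx, hy, map_add, map_add]

theorem cechD_baseChange_prodRight (t : B' ⊗[B] (M₀ × M₁)) :
    cechD (ρ₀.baseChange B') (ρ₁.baseChange B') (TensorProduct.prodRight B B B' M₀ M₁ t) =
      (cechD ρ₀ ρ₁).lTensor B' t := by
  induction t using TensorProduct.induction_on with
  | zero => simp
  | tmul b z =>
    rw [show z = (z.1, z.2) from rfl, TensorProduct.prodRight_tmul, cechD_baseChange_tmul,
      LinearMap.lTensor_tmul]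
  | add x y hx hy => rw [map_add, map_add, hx, hy, map_add]

/-- (A1.2c) -/
theorem h0BaseChangeMap_bijective [Module.Flat B N]
    (h : Function.Surjective (cechD ρ₀ ρ₁)) :
    Function.Bijective (h0BaseChangeMap ρ₀ ρ₁ B') := by
  have hex : Function.Exact (H0 ρ₀ ρ₁).subtype (cechD ρ₀ ρ₁) :=
    LinearMap.exact_subtype_ker_map (cechD ρ₀ ρ₁)
  constructor
  · rw [injective_iff_map_eq_zero]
    intro w hw
    have h1 : TensorProduct.prodRight B B B' M₀ M₁ ((H0 ρ₀ ρ₁).subtype.lTensor B' w) = 0 := by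
      rw [← coe_h0BaseChangeMap, hw, Submodule.coe_zero]
    have h2 : (H0 ρ₀ ρ₁).subtype.lTensor B' w = 0 := by
      simpa using h1
    have hinj := LinearMap.lTensor_injective_of_exact_of_flat (cechD ρ₀ ρ₁) h
      (H0 ρ₀ ρ₁).subtype (Submodule.subtype_injective _) hex B'
    exact hinj (by rw [h2, map_zero])
  · intro z
    set t := (TensorProduct.prodRight B B B' M₀ M₁).symm (z : (B' ⊗[B] M₀) × (B' ⊗[B] M₁)) with ht
    have hz : cechD (ρ₀.baseChange B') (ρ₁.baseChange B')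
        (z : (B' ⊗[B] M₀) × (B' ⊗[B] M₁)) = 0 := z.2
    have h1 : (cechD ρ₀ ρ₁).lTensor B' t = 0 := by
      rw [← cechD_baseChange_prodRight, ht, LinearEquiv.apply_symm_apply, hz]
    obtain ⟨w, hw⟩ := (lTensor_exact B' hex h t).1 h1
    refine ⟨w, Subtype.ext ?_⟩
    rw [coe_h0BaseChangeMap, hw, ht, LinearEquiv.apply_symm_apply]

end BaseChange

/-- a quotient-tensor is trivial iff `I • ⊤ = ⊤`. -/
theorem smul_top_eq_top_of_subsingleton_tensor {Q : Type u} [AddCommGroup Q] [Module B Q]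
    (I : Ideal B) (h : Subsingleton ((B ⧸ I) ⊗[B] Q)) : I • (⊤ : Submodule B Q) = ⊤ := by
  have e := TensorProduct.quotTensorEquivQuotSMul Q I
  have : Subsingleton (Q ⧸ I • (⊤ : Submodule B Q)) := e.symm.toEquiv.subsingleton
  exact Submodule.Quotient.subsingleton_iff.mp this

/-- (A1.3) -/
theorem subsingleton_of_forall_residueField_tensor {Q : Type u} [AddCommGroup Q] [Module B Q]
    [Module.Finite B Q]
    (h : ∀ (m : Ideal B) [m.IsMaximal], Subsingleton ((B ⧸ m) ⊗[B] Q)) : Subsingleton Q := by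
  by_contra hQ
  rw [not_subsingleton_iff_nontrivial] at hQ
  have hann : Module.annihilator B Q ≠ ⊤ := by
    intro htop
    have h1 : (1 : B) ∈ Module.annihilator B Q := htop ▸ Submodule.mem_top
    rw [Module.mem_annihilator] at h1
    obtain ⟨x, hx⟩ := exists_ne (0 : Q)
    exact hx (by simpa using h1 x)
  obtain ⟨m, hm, hle⟩ := Ideal.exists_le_maximal _ hann
  have htop : m • (⊤ : Submodule B Q) = ⊤ := smul_top_eq_top_of_subsingleton_tensor m (h m)
  obtain ⟨r, hr, hr0⟩ := Submodule.exists_sub_one_mem_and_smul_eq_zero_of_fg_of_le_smul m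
    (⊤ : Submodule B Q) Module.Finite.fg_top (le_of_eq htop.symm)
  have hrann : r ∈ Module.annihilator B Q := by
    rw [Module.mem_annihilator]
    intro q
    exact hr0 q Submodule.mem_top
  have hrm : r ∈ m := hle hrann
  have : (1 : B) ∈ m := by
    have := m.sub_mem hrm hr
    simpa using this
  exact hm.ne_top ((Ideal.eq_top_iff_one m).mpr this)

/-- (A1.3') vanishing of `H¹` from fibrewise vanishing, given finite generation. -/
theorem cechD_surjective_of_fibrewise [Module.Finite B (H1 ρ₀ ρ₁)]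
    (h : ∀ (m : Ideal B) [m.IsMaximal],
      Function.Surjective (cechD (ρ₀.baseChange (B ⧸ m)) (ρ₁.baseChange (B ⧸ m)))) :
    Function.Surjective (cechD ρ₀ ρ₁) := by
  have hsub : Subsingleton (H1 ρ₀ ρ₁) := by
    refine subsingleton_of_forall_residueField_tensor (B := B) ?_
    intro m _
    have e := h1BaseChangeEquiv ρ₀ ρ₁ (B ⧸ m)
    have : Subsingleton (H1 (ρ₀.baseChange (B ⧸ m)) (ρ₁.baseChange (B ⧸ m))) := by
      rw [Submodule.Quotient.subsingleton_iff, LinearMap.range_eq_top]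
      exact h m
    exact e.toEquiv.subsingleton
  rw [← LinearMap.range_eq_top, ← Submodule.Quotient.subsingleton_iff]
  exact hsub

/-- (A1.4a) -/
theorem subsingleton_of_projective_of_fibres {P : Type u} [AddCommGroup P] [Module B P]
    [Module.Projective B P]
    (h : ∀ (m : Ideal B) [m.IsMaximal], Subsingleton ((B ⧸ m) ⊗[B] P)) : Subsingleton P := by
  classical
  obtain ⟨s, hs⟩ := (Module.projective_def' (R := B) (P := P)).mp inferInstance
  have hs' : ∀ y : P, Finsupp.linearCombination B id (s y) = y := fun y => LinearMap.congr_fun hs y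
  -- all coordinates of all elements lie in every maximal ideal
  have hcoord : ∀ (m : Ideal B) [m.IsMaximal] (y q : P), s y q ∈ m := by
    intro m _ y q
    have htop : m • (⊤ : Submodule B P) = ⊤ := smul_top_eq_top_of_subsingleton_tensor m (h m)
    have hy : y ∈ m • (⊤ : Submodule B P) := by rw [htop]; exact Submodule.mem_top
    refine Submodule.smul_induction_on hy ?_ ?_
    · intro r hr n _
      rw [map_smul, Finsupp.smul_apply, smul_eq_mul]
      exact m.mul_mem_right _ hr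
    · intro x y hx hy
      rw [map_add, Finsupp.add_apply]
      exact m.add_mem hx hy
  have hJ : ∀ y q : P, s y q ∈ (⊥ : Ideal B).jacobson := by
    intro y q
    rw [Ideal.jacobson, Ideal.mem_sInf]
    rintro m ⟨-, hm⟩
    exact hcoord m y q
  suffices h0 : ∀ x : P, x = 0 from ⟨fun x y => by rw [h0 x, h0 y]⟩
  intro x
  set c := s x with hc
  have hx : x = ∑ q ∈ c.support, c q • q := by
    have := hs' x
    rw [Finsupp.linearCombination_apply, Finsupp.sum] at this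
    simpa using this.symm
  set 𝔞 : Ideal B := Ideal.span ((fun q => c q) '' (c.support : Set P)) with h𝔞
  have hfg : 𝔞.FG := by
    refine ⟨c.support.image (fun q => c q), ?_⟩
    rw [h𝔞, Finset.coe_image]
  have hle : 𝔞 ≤ (⊥ : Ideal B).jacobson • 𝔞 := by
    rw [h𝔞, Ideal.span_le]
    rintro _ ⟨q₀, -, rfl⟩
    have hq₀ : c q₀ = ∑ q ∈ c.support, c q * s q q₀ := by
      have := congrArg (fun y => s y q₀) hx
      simp only [map_sum, map_smul, Finsupp.coe_finsetSum, Finsupp.coe_smul, Finset.sum_apply,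
        Pi.smul_apply, smul_eq_mul] at this
      exact this
    change c q₀ ∈ _
    rw [hq₀]
    refine Submodule.sum_mem _ fun q hq => ?_
    rw [mul_comm]
    exact Submodule.smul_mem_smul (hJ q q₀) (Ideal.subset_span ⟨q, hq, rfl⟩)
  have hbot : 𝔞 = ⊥ :=
    Submodule.eq_bot_of_le_smul_of_le_jacobson_bot _ _ hfg hle le_rfl
  rw [hx]
  refine Finset.sum_eq_zero fun q hq => ?_
  have hmem : c q ∈ 𝔞 := Ideal.subset_span ⟨q, hq, rfl⟩
  rw [hbot, Ideal.mem_bot] at hmem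
  rw [hmem, zero_smul]

/-- a finitely generated module all of whose fibres at primes vanish is zero. -/
theorem subsingleton_of_forall_prime_residueField_tensor {Q : Type u} [AddCommGroup Q]
    [Module B Q] [Module.Finite B Q]
    (h : ∀ (p : Ideal B) [p.IsPrime], Subsingleton (p.ResidueField ⊗[B] Q)) : Subsingleton Q := by
  rw [← Module.support_eq_empty_iff (R := B)]
  ext p
  simp only [Set.mem_empty_iff_false, iff_false]
  rw [Module.mem_support_iff_nontrivial_residueField_tensorProduct, not_nontrivial_iff_subsingleton]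
  exact h p.asIdeal

/-- (A1.5) -/
theorem exists_basicOpen_surjective {P Q : Type u} [AddCommGroup P] [AddCommGroup Q]
    [Module B P] [Module B Q] [Module.Finite B Q] (φ : P →ₗ[B] Q) (p : Ideal B) [p.IsPrime]
    (h : Function.Surjective (φ.baseChange p.ResidueField)) :
    ∃ f : B, f ∉ p ∧ Function.Surjective (φ.baseChange (Localization.Away f)) := by
  set R := LinearMap.range φ with hR
  have hex : Function.Exact φ R.mkQ := LinearMap.exact_map_mkQ_range φ
  have hsurj : Function.Surjective R.mkQ := R.mkQ_surjective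
  -- the fibre of the cokernel at `p` vanishes
  have hfib : Subsingleton (p.ResidueField ⊗[B] (Q ⧸ R)) := by
    have hex' := lTensor_exact p.ResidueField hex hsurj
    have hs' : Function.Surjective (R.mkQ.lTensor p.ResidueField) :=
      LinearMap.lTensor_surjective _ hsurj
    refine ⟨fun a b => ?_⟩
    obtain ⟨a', rfl⟩ := hs' a
    obtain ⟨b', rfl⟩ := hs' b
    have ha : R.mkQ.lTensor p.ResidueField a' = 0 := by
      rw [hex' a']
      obtain ⟨x, hx⟩ := h a'
      exact ⟨x, by rw [← hx, LinearMap.baseChange_eq_ltensor]⟩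
    have hb : R.mkQ.lTensor p.ResidueField b' = 0 := by
      rw [hex' b']
      obtain ⟨x, hx⟩ := h b'
      exact ⟨x, by rw [← hx, LinearMap.baseChange_eq_ltensor]⟩
    rw [ha, hb]
  have hsupp : (⟨p, inferInstance⟩ : PrimeSpectrum B) ∉ Module.support B (Q ⧸ R) := by
    rw [Module.mem_support_iff_nontrivial_residueField_tensorProduct,
      not_nontrivial_iff_subsingleton]
    exact hfib
  rw [Module.support_eq_zeroLocus, PrimeSpectrum.mem_zeroLocus, SetLike.coe_subset_coe,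
    SetLike.not_le_iff_exists] at hsupp
  obtain ⟨f, hfann, hfp⟩ := hsupp
  refine ⟨f, hfp, ?_⟩
  rw [Module.mem_annihilator] at hfann
  set A := Localization.Away f
  have hex' := lTensor_exact A hex hsurj
  have hzero : ∀ t : A ⊗[B] (Q ⧸ R), t = 0 := by
    intro t
    induction t using TensorProduct.induction_on with
    | zero => rfl
    | tmul a c =>
      have hu : IsUnit (algebraMap B A f) := IsLocalization.Away.algebraMap_isUnit f
      obtain ⟨u, hu⟩ := hu
      have : a = (a * ↑u⁻¹) * algebraMap B A f := by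
        rw [← hu, mul_assoc, Units.inv_mul, mul_one]
      have e : a * ↑u⁻¹ * algebraMap B A f = f • (a * ↑u⁻¹) := by
        rw [Algebra.smul_def, mul_comm]
      rw [this, e, TensorProduct.smul_tmul, hfann c, TensorProduct.tmul_zero]
    | add x y hx hy => rw [hx, hy, add_zero]
  intro t
  have := (hex' t).1 (hzero _)
  obtain ⟨x, hx⟩ := this
  exact ⟨x, by rw [← hx, LinearMap.baseChange_eq_ltensor]⟩

/-- a split surjection decomposes the source as `ker × target`. -/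
noncomputable def kerProdEquivOfSection {P Q : Type u} [AddCommGroup P] [AddCommGroup Q]
    [Module B P] [Module B Q] (φ : P →ₗ[B] Q) (s : Q →ₗ[B] P) (hs : φ ∘ₗ s = LinearMap.id) :
    P ≃ₗ[B] (LinearMap.ker φ × Q) :=
  have hs' : ∀ q, φ (s q) = q := fun q => LinearMap.congr_fun hs q
  LinearEquiv.ofLinearMap
    (LinearMap.prod
      (LinearMap.codRestrict (LinearMap.ker φ) (LinearMap.id - s ∘ₗ φ) (fun x => by
        rw [LinearMap.mem_ker, LinearMap.sub_apply, map_sub, LinearMap.id_apply,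
          LinearMap.comp_apply, hs', sub_self]))
      φ)
    (LinearMap.coprod (LinearMap.ker φ).subtype s)
    (by
      apply LinearMap.ext
      rintro ⟨⟨k, hk⟩, q⟩
      rw [LinearMap.mem_ker] at hk
      apply Prod.ext
      · apply Subtype.ext
        simp [hk, hs']
      · simp [hk, hs'])
    (by
      apply LinearMap.ext
      intro x
      simp)

/-- (A1.5') -/
theorem bijective_of_surjective_of_finrank_eq {P Q : Type u} [AddCommGroup P] [AddCommGroup Q]
    [Module B P] [Module B Q] [Module.Finite B P] [Module.Projective B P]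
    [Module.Finite B Q] [Module.Projective B Q] (φ : P →ₗ[B] Q) (hφ : Function.Surjective φ)
    (hrk : ∀ (p : Ideal B) [p.IsPrime],
      Module.finrank p.ResidueField (p.ResidueField ⊗[B] P) =
        Module.finrank p.ResidueField (p.ResidueField ⊗[B] Q)) :
    Function.Bijective φ := by
  refine ⟨?_, hφ⟩
  obtain ⟨s, hs⟩ := Module.projective_lifting_property φ LinearMap.id hφ
  let e := kerProdEquivOfSection φ s hs
  have : Module.Finite B (LinearMap.ker φ) := by
    refine Module.Finite.of_surjective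
      ((LinearMap.fst B (LinearMap.ker φ) Q) ∘ₗ e.toLinearMap) ?_
    intro k
    exact ⟨e.symm (k, 0), by simp⟩
  have hK : Subsingleton (LinearMap.ker φ) := by
    refine subsingleton_of_forall_prime_residueField_tensor (B := B) ?_
    intro p _
    let e' : p.ResidueField ⊗[B] P ≃ₗ[p.ResidueField]
        (p.ResidueField ⊗[B] LinearMap.ker φ) × (p.ResidueField ⊗[B] Q) :=
      (LinearEquiv.baseChange B p.ResidueField P (LinearMap.ker φ × Q) e).trans
        (TensorProduct.prodRight B p.ResidueField p.ResidueField (LinearMap.ker φ) Q)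
    have h1 := e'.finrank_eq
    rw [Module.finrank_prod, hrk p] at h1
    have h0 : Module.finrank p.ResidueField (p.ResidueField ⊗[B] LinearMap.ker φ) = 0 := by
      omega
    exact Module.finrank_zero_iff.mp h0
  rw [injective_iff_map_eq_zero]
  intro x hx
  have : (⟨x, hx⟩ : LinearMap.ker φ) = 0 := Subsingleton.elim _ _
  exact congrArg Subtype.val this

section Sandwich

variable {M₁' : Type u} [AddCommGroup M₁'] [Module B M₁']
variable (ι : M₁ →ₗ[B] M₁') (ρ₁' : M₁' →ₗ[B] N)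

/-- `H⁰ → H⁰'`. -/
def h0Map (hι : ρ₁' ∘ₗ ι = ρ₁) : H0 ρ₀ ρ₁ →ₗ[B] H0 ρ₀ ρ₁' :=
  (LinearMap.prodMap LinearMap.id ι).restrict (p := H0 ρ₀ ρ₁) (q := H0 ρ₀ ρ₁') (by
    intro z hz
    rw [mem_H0] at hz ⊢
    have : ρ₁' (ι z.2) = ρ₁ z.2 := by rw [← hι]; rfl
    simpa [this] using hz)

theorem coe_h0Map (hι : ρ₁' ∘ₗ ι = ρ₁) (z : H0 ρ₀ ρ₁) :
    (h0Map ρ₀ ρ₁ ι ρ₁' hι z : M₀ × M₁') = ((z : M₀ × M₁).1, ι (z : M₀ × M₁).2) := rfl

/-- `H⁰' → Q = M₁' / ι M₁`, `(x, y) ↦ [y]`. -/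
def h0ToQuot : H0 ρ₀ ρ₁' →ₗ[B] (M₁' ⧸ LinearMap.range ι) :=
  (LinearMap.range ι).mkQ ∘ₗ (LinearMap.snd B M₀ M₁') ∘ₗ (H0 ρ₀ ρ₁').subtype

/-- `Q → H¹`, `[y] ↦ [ρ₁' y]`. -/
def quotToH1 (hι : ρ₁' ∘ₗ ι = ρ₁) : (M₁' ⧸ LinearMap.range ι) →ₗ[B] H1 ρ₀ ρ₁ :=
  (LinearMap.range ι).liftQ ((LinearMap.range (cechD ρ₀ ρ₁)).mkQ ∘ₗ ρ₁') (by
    rintro _ ⟨y, rfl⟩
    rw [LinearMap.mem_ker, LinearMap.comp_apply, Submodule.mkQ_apply,
      Submodule.Quotient.mk_eq_zero]
    have : ρ₁' (ι y) = ρ₁ y := by rw [← hι]; rfl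
    rw [this]
    exact right_mem_range_cechD ρ₀ ρ₁ y)

theorem range_cechD_le (hι : ρ₁' ∘ₗ ι = ρ₁) :
    LinearMap.range (cechD ρ₀ ρ₁) ≤ LinearMap.range (cechD ρ₀ ρ₁') := by
  rintro _ ⟨z, rfl⟩
  refine ⟨(z.1, ι z.2), ?_⟩
  have : ρ₁' (ι z.2) = ρ₁ z.2 := by rw [← hι]; rfl
  rw [cechD_apply, cechD_apply, this]

/-- `H¹ → H¹'`. -/
def h1Map (hι : ρ₁' ∘ₗ ι = ρ₁) : H1 ρ₀ ρ₁ →ₗ[B] H1 ρ₀ ρ₁' :=
  (LinearMap.range (cechD ρ₀ ρ₁)).liftQ (LinearMap.range (cechD ρ₀ ρ₁')).mkQ (by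
    intro n hn
    rw [LinearMap.mem_ker, Submodule.mkQ_apply, Submodule.Quotient.mk_eq_zero]
    exact range_cechD_le ρ₀ ρ₁ ι ρ₁' hι hn)

theorem h0Map_injective (hι : ρ₁' ∘ₗ ι = ρ₁) (hinj : Function.Injective ι) :
    Function.Injective (h0Map ρ₀ ρ₁ ι ρ₁' hι) := by
  intro z w h
  have h' := congrArg Subtype.val h
  rw [coe_h0Map, coe_h0Map, Prod.mk.injEq] at h'
  exact Subtype.ext (Prod.ext h'.1 (hinj h'.2))

theorem exact_h0Map_h0ToQuot (hι : ρ₁' ∘ₗ ι = ρ₁) (hinj : Function.Injective ι) :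
    Function.Exact (h0Map ρ₀ ρ₁ ι ρ₁' hι) (h0ToQuot ρ₀ ι ρ₁') := by
  intro w
  have hρ : ∀ y, ρ₁' (ι y) = ρ₁ y := fun y => by rw [← hι]; rfl
  constructor
  · intro hw
    have hw' : (w : M₀ × M₁').2 ∈ LinearMap.range ι := by
      simpa [h0ToQuot, Submodule.Quotient.mk_eq_zero] using hw
    obtain ⟨y, hy⟩ := hw'
    have hwm : ρ₀ (w : M₀ × M₁').1 = ρ₁' (w : M₀ × M₁').2 := (mem_H0 ρ₀ ρ₁' _).1 w.2
    refine ⟨⟨((w : M₀ × M₁').1, y), ?_⟩, ?_⟩
    · rw [mem_H0]
      show ρ₀ (w : M₀ × M₁').1 = ρ₁ y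
      rw [hwm, ← hy, hρ]
    · apply Subtype.ext
      rw [coe_h0Map]
      exact Prod.ext rfl hy
  · rintro ⟨z, rfl⟩
    simp only [h0ToQuot, LinearMap.comp_apply, Submodule.subtype_apply, coe_h0Map,
      LinearMap.snd_apply, Submodule.mkQ_apply, Submodule.Quotient.mk_eq_zero]
    exact LinearMap.mem_range_self _ _

theorem exact_h0ToQuot_quotToH1 (hι : ρ₁' ∘ₗ ι = ρ₁) :
    Function.Exact (h0ToQuot ρ₀ ι ρ₁') (quotToH1 ρ₀ ρ₁ ι ρ₁' hι) := by
  have hρ : ∀ y, ρ₁' (ι y) = ρ₁ y := fun y => by rw [← hι]; rfl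
  intro q
  obtain ⟨y', rfl⟩ := Submodule.Quotient.mk_surjective _ q
  constructor
  · intro h
    have h' : ρ₁' y' ∈ LinearMap.range (cechD ρ₀ ρ₁) := by
      simpa [quotToH1, Submodule.Quotient.mk_eq_zero] using h
    obtain ⟨z, hz⟩ := h'
    rw [cechD_apply] at hz
    refine ⟨⟨(z.1, y' + ι z.2), ?_⟩, ?_⟩
    · rw [mem_H0]
      show ρ₀ z.1 = ρ₁' (y' + ι z.2)
      rw [map_add, hρ, ← hz]
      abel
    · simp only [h0ToQuot, LinearMap.comp_apply, Submodule.subtype_apply, LinearMap.snd_apply,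
        Submodule.mkQ_apply]
      rw [Submodule.Quotient.eq]
      simp
  · rintro ⟨w, hw⟩
    have hwm : ρ₀ (w : M₀ × M₁').1 = ρ₁' (w : M₀ × M₁').2 := (mem_H0 ρ₀ ρ₁' _).1 w.2
    rw [← hw]
    simp only [h0ToQuot, LinearMap.comp_apply, Submodule.subtype_apply, LinearMap.snd_apply,
      Submodule.mkQ_apply, quotToH1, Submodule.liftQ_apply, Submodule.Quotient.mk_eq_zero]
    rw [← hwm]
    exact left_mem_range_cechD ρ₀ ρ₁ _

theorem exact_quotToH1_h1Map (hι : ρ₁' ∘ₗ ι = ρ₁) :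
    Function.Exact (quotToH1 ρ₀ ρ₁ ι ρ₁' hι) (h1Map ρ₀ ρ₁ ι ρ₁' hι) := by
  intro c
  obtain ⟨n, rfl⟩ := Submodule.Quotient.mk_surjective _ c
  constructor
  · intro h
    have h' : n ∈ LinearMap.range (cechD ρ₀ ρ₁') := by
      simpa [h1Map, Submodule.Quotient.mk_eq_zero] using h
    obtain ⟨z, hz⟩ := h'
    rw [cechD_apply] at hz
    refine ⟨Submodule.Quotient.mk (-z.2), ?_⟩
    simp only [quotToH1, Submodule.liftQ_apply, LinearMap.comp_apply, Submodule.mkQ_apply]
    rw [Submodule.Quotient.eq, map_neg, ← hz]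
    have : -ρ₁' z.2 - (ρ₀ z.1 - ρ₁' z.2) = -ρ₀ z.1 := by abel
    rw [this]
    exact Submodule.neg_mem _ (left_mem_range_cechD ρ₀ ρ₁ _)
  · rintro ⟨q, hq⟩
    obtain ⟨y', rfl⟩ := Submodule.Quotient.mk_surjective _ q
    rw [← hq]
    simp only [quotToH1, Submodule.liftQ_apply, LinearMap.comp_apply, Submodule.mkQ_apply, h1Map,
      Submodule.Quotient.mk_eq_zero]
    exact right_mem_range_cechD ρ₀ ρ₁' y'

theorem h1Map_surjective (hι : ρ₁' ∘ₗ ι = ρ₁) :
    Function.Surjective (h1Map ρ₀ ρ₁ ι ρ₁' hι) := by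
  intro c
  obtain ⟨n, rfl⟩ := Submodule.Quotient.mk_surjective _ c
  exact ⟨Submodule.Quotient.mk n, by simp [h1Map]⟩

end Sandwich

end Fermat.Agent.JAC.Cech
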