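/-
Programme JAC (S25), work package A2 (iv) / A1 complement, helper67: FLAT base change for the
two-term Čech complex of helper31's `Cech/Basic`.

* `h0BaseChangeMap_bijective_of_flat` : for `B → B'` flat, `B' ⊗ H⁰ → H⁰(base change)` is bijective
  (no hypothesis on `H¹`);  `h0BaseChangeEquivOfFlat`.
* `H0congr`, `H1congr` : isomorphic Čech pairs have isomorphic cohomology.
* field extensions `K ⊆ K'`: `finrank_H0_baseChange`, `finrank_H1_baseChange`,
  `finite_H0_baseChange_iff`, `finite_H1_baseChange_iff`, `cechD_baseChange_surjective_iff`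
  (`H¹ = 0` is invariant under field extension).
* the same in predicate form (`IsBaseChange`): `finrank_H0_of_isBaseChange`,
  `finrank_H1_of_isBaseChange`.
-/
import Mathlib
import Fermat.Agent.JAC.Cech.Basic

set_option autoImplicit false

open TensorProduct

universe u

namespace Fermat.Agent.JAC.Cech.FlatBC67

open Fermat.Agent.JAC.Cech

section Flat

variable {B : Type u} [CommRing B]
variable {M₀ M₁ N : Type u} [AddCommGroup M₀] [AddCommGroup M₁] [AddCommGroup N]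
variable [Module B M₀] [Module B M₁] [Module B N]
variable (ρ₀ : M₀ →ₗ[B] N) (ρ₁ : M₁ →ₗ[B] N)
variable (B' : Type u) [CommRing B'] [Algebra B B']

/-- Flat base change for `H⁰`: no hypothesis on `H¹` is needed when `B'` is `B`-flat. -/
theorem h0BaseChangeMap_bijective_of_flat [Module.Flat B B'] :
    Function.Bijective (h0BaseChangeMap ρ₀ ρ₁ B') := by
  have hex : Function.Exact (H0 ρ₀ ρ₁).subtype (cechD ρ₀ ρ₁) :=
    LinearMap.exact_subtype_ker_map (cechD ρ₀ ρ₁)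
  constructor
  · rw [injective_iff_map_eq_zero]
    intro w hw
    have h1 : TensorProduct.prodRight B B B' M₀ M₁ ((H0 ρ₀ ρ₁).subtype.lTensor B' w) = 0 := by
      rw [← coe_h0BaseChangeMap, hw, Submodule.coe_zero]
    have h2 : (H0 ρ₀ ρ₁).subtype.lTensor B' w = 0 := by
      simpa using h1
    have hinj := Module.Flat.lTensor_preserves_injective_linearMap (M := B')
      (H0 ρ₀ ρ₁).subtype (Submodule.subtype_injective _)
    exact hinj (by rw [h2, map_zero])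
  · intro z
    set t := (TensorProduct.prodRight B B B' M₀ M₁).symm (z : (B' ⊗[B] M₀) × (B' ⊗[B] M₁)) with ht
    have hz : cechD (ρ₀.baseChange B') (ρ₁.baseChange B')
        (z : (B' ⊗[B] M₀) × (B' ⊗[B] M₁)) = 0 := z.2
    have h1 : (cechD ρ₀ ρ₁).lTensor B' t = 0 := by
      rw [← cechD_baseChange_prodRight, ht, LinearEquiv.apply_symm_apply, hz]
    obtain ⟨w, hw⟩ := (Module.Flat.lTensor_exact B' hex t).1 h1
    refine ⟨w, Subtype.ext ?_⟩
    rw [coe_h0BaseChangeMap, hw, ht, LinearEquiv.apply_symm_apply]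

/-- Flat base change for `H⁰` as an equivalence. -/
noncomputable def h0BaseChangeEquivOfFlat [Module.Flat B B'] :
    (B' ⊗[B] H0 ρ₀ ρ₁) ≃ₗ[B'] H0 (ρ₀.baseChange B') (ρ₁.baseChange B') :=
  LinearEquiv.ofBijective (h0BaseChangeMap ρ₀ ρ₁ B') (h0BaseChangeMap_bijective_of_flat ρ₀ ρ₁ B')

end Flat

section Congr

variable {B : Type u} [CommRing B]
variable {M₀ M₁ N M₀' M₁' N' : Type u} [AddCommGroup M₀] [AddCommGroup M₁] [AddCommGroup N]
  [AddCommGroup M₀'] [AddCommGroup M₁'] [AddCommGroup N']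
variable [Module B M₀] [Module B M₁] [Module B N] [Module B M₀'] [Module B M₁'] [Module B N']
variable {ρ₀ : M₀ →ₗ[B] N} {ρ₁ : M₁ →ₗ[B] N} {ρ₀' : M₀' →ₗ[B] N'} {ρ₁' : M₁' →ₗ[B] N'}

theorem cechD_congr (e₀ : M₀ ≃ₗ[B] M₀') (e₁ : M₁ ≃ₗ[B] M₁') (eN : N ≃ₗ[B] N')
    (h₀ : ∀ x, eN (ρ₀ x) = ρ₀' (e₀ x)) (h₁ : ∀ y, eN (ρ₁ y) = ρ₁' (e₁ y)) (z : M₀ × M₁) :
    cechD ρ₀' ρ₁' (e₀.prodCongr e₁ z) = eN (cechD ρ₀ ρ₁ z) := by
  simp [cechD_apply, h₀, h₁]

/-- Isomorphic Čech pairs have isomorphic `H⁰`. -/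
noncomputable def H0congr (e₀ : M₀ ≃ₗ[B] M₀') (e₁ : M₁ ≃ₗ[B] M₁') (eN : N ≃ₗ[B] N')
    (h₀ : ∀ x, eN (ρ₀ x) = ρ₀' (e₀ x)) (h₁ : ∀ y, eN (ρ₁ y) = ρ₁' (e₁ y)) :
    H0 ρ₀ ρ₁ ≃ₗ[B] H0 ρ₀' ρ₁' :=
  LinearEquiv.ofSubmodules (e₀.prodCongr e₁) (H0 ρ₀ ρ₁) (H0 ρ₀' ρ₁') (by
    ext z
    constructor
    · rintro ⟨w, hw, rfl⟩
      have hw' : cechD ρ₀ ρ₁ w = 0 := hw
      have key := cechD_congr e₀ e₁ eN h₀ h₁ w
      rw [hw', map_zero] at key
      exact key
    · intro hz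
      have hz' : cechD ρ₀' ρ₁' z = 0 := hz
      refine ⟨(e₀.prodCongr e₁).symm z, ?_, by simp⟩
      have key := cechD_congr e₀ e₁ eN h₀ h₁ ((e₀.prodCongr e₁).symm z)
      rw [LinearEquiv.apply_symm_apply, hz'] at key
      show cechD ρ₀ ρ₁ _ = 0
      exact eN.injective (by rw [← key, map_zero]))

/-- Isomorphic Čech pairs have isomorphic `H¹`. -/
noncomputable def H1congr (e₀ : M₀ ≃ₗ[B] M₀') (e₁ : M₁ ≃ₗ[B] M₁') (eN : N ≃ₗ[B] N')
    (h₀ : ∀ x, eN (ρ₀ x) = ρ₀' (e₀ x)) (h₁ : ∀ y, eN (ρ₁ y) = ρ₁' (e₁ y)) :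
    H1 ρ₀ ρ₁ ≃ₗ[B] H1 ρ₀' ρ₁' :=
  Submodule.Quotient.equiv _ _ eN (by
    ext n
    constructor
    · rintro ⟨_, ⟨z, rfl⟩, rfl⟩
      exact ⟨e₀.prodCongr e₁ z, cechD_congr e₀ e₁ eN h₀ h₁ z⟩
    · rintro ⟨z, rfl⟩
      refine ⟨cechD ρ₀ ρ₁ ((e₀.prodCongr e₁).symm z), ⟨_, rfl⟩, ?_⟩
      have key := cechD_congr e₀ e₁ eN h₀ h₁ ((e₀.prodCongr e₁).symm z)
      rw [LinearEquiv.apply_symm_apply] at key
      exact key.symm)

end Congr

section Field

variable {K : Type u} [Field K] (K' : Type u) [Field K'] [Algebra K K']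

/-- finiteness is invariant under extension of the base field -/
theorem finite_baseChange_iff (V : Type u) [AddCommGroup V] [Module K V] :
    Module.Finite K' (K' ⊗[K] V) ↔ Module.Finite K V := by
  rw [← Module.rank_lt_aleph0_iff, ← Module.rank_lt_aleph0_iff, Module.rank_baseChange,
    Cardinal.lift_lt_aleph0]

/-- vanishing is invariant under extension of the base field -/
theorem subsingleton_baseChange_iff (V : Type u) [AddCommGroup V] [Module K V] :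
    Subsingleton (K' ⊗[K] V) ↔ Subsingleton V := by
  rw [← rank_zero_iff (R := K'), ← rank_zero_iff (R := K), Module.rank_baseChange,
    Cardinal.lift_eq_zero]

variable {M₀ M₁ N : Type u} [AddCommGroup M₀] [AddCommGroup M₁] [AddCommGroup N]
variable [Module K M₀] [Module K M₁] [Module K N]
variable (ρ₀ : M₀ →ₗ[K] N) (ρ₁ : M₁ →ₗ[K] N)

/-- `h⁰` is invariant under extension of the base field. -/
theorem finrank_H0_baseChange :
    Module.finrank K' (H0 (ρ₀.baseChange K') (ρ₁.baseChange K')) =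
      Module.finrank K (H0 ρ₀ ρ₁) := by
  rw [← (h0BaseChangeEquivOfFlat ρ₀ ρ₁ K').finrank_eq, Module.finrank_baseChange]

/-- `h¹` is invariant under extension of the base field. -/
theorem finrank_H1_baseChange :
    Module.finrank K' (H1 (ρ₀.baseChange K') (ρ₁.baseChange K')) =
      Module.finrank K (H1 ρ₀ ρ₁) := by
  rw [← (h1BaseChangeEquiv ρ₀ ρ₁ K').finrank_eq, Module.finrank_baseChange]

theorem finite_H0_baseChange_iff :
    Module.Finite K' (H0 (ρ₀.baseChange K') (ρ₁.baseChange K')) ↔ Module.Finite K (H0 ρ₀ ρ₁) := by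
  rw [← finite_baseChange_iff (K := K) K' (H0 ρ₀ ρ₁)]
  exact Module.Finite.equiv_iff (h0BaseChangeEquivOfFlat ρ₀ ρ₁ K').symm

theorem finite_H1_baseChange_iff :
    Module.Finite K' (H1 (ρ₀.baseChange K') (ρ₁.baseChange K')) ↔ Module.Finite K (H1 ρ₀ ρ₁) := by
  rw [← finite_baseChange_iff (K := K) K' (H1 ρ₀ ρ₁)]
  exact Module.Finite.equiv_iff (h1BaseChangeEquiv ρ₀ ρ₁ K').symm

/-- `H¹ = 0` is invariant under extension of the base field. -/
theorem cechD_baseChange_surjective_iff :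
    Function.Surjective (cechD (ρ₀.baseChange K') (ρ₁.baseChange K')) ↔
      Function.Surjective (cechD ρ₀ ρ₁) := by
  rw [← LinearMap.range_eq_top, ← LinearMap.range_eq_top,
    ← Submodule.Quotient.subsingleton_iff, ← Submodule.Quotient.subsingleton_iff]
  rw [← subsingleton_baseChange_iff (K := K) K' (N ⧸ LinearMap.range (cechD ρ₀ ρ₁))]
  exact (h1BaseChangeEquiv ρ₀ ρ₁ K').symm.toEquiv.subsingleton_congr

/-- `H⁰ = 0` is invariant under extension of the base field. -/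
theorem H0_baseChange_eq_bot_iff :
    H0 (ρ₀.baseChange K') (ρ₁.baseChange K') = ⊥ ↔ H0 ρ₀ ρ₁ = ⊥ := by
  rw [← Submodule.subsingleton_iff_eq_bot, ← Submodule.subsingleton_iff_eq_bot,
    ← subsingleton_baseChange_iff (K := K) K' (↥(H0 ρ₀ ρ₁))]
  exact (h0BaseChangeEquivOfFlat ρ₀ ρ₁ K').symm.toEquiv.subsingleton_congr

end Field

section Predicate

variable {B : Type u} [CommRing B] (B' : Type u) [CommRing B'] [Algebra B B']
variable {M₀ M₁ N : Type u} [AddCommGroup M₀] [AddCommGroup M₁] [AddCommGroup N]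
variable [Module B M₀] [Module B M₁] [Module B N]
variable {M₀' M₁' N' : Type u} [AddCommGroup M₀'] [AddCommGroup M₁'] [AddCommGroup N']
variable [Module B M₀'] [Module B M₁'] [Module B N']
variable [Module B' M₀'] [Module B' M₁'] [Module B' N']
variable [IsScalarTower B B' M₀'] [IsScalarTower B B' M₁'] [IsScalarTower B B' N']
variable {ρ₀ : M₀ →ₗ[B] N} {ρ₁ : M₁ →ₗ[B] N} {ρ₀' : M₀' →ₗ[B'] N'} {ρ₁' : M₁' →ₗ[B'] N'}
variable {f₀ : M₀ →ₗ[B] M₀'} {f₁ : M₁ →ₗ[B] M₁'} {fN : N →ₗ[B] N'}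

theorem isBaseChange_comm (h₀ : IsBaseChange B' f₀) (hN : IsBaseChange B' fN)
    (hc : ∀ x, ρ₀' (f₀ x) = fN (ρ₀ x)) (z : B' ⊗[B] M₀) :
    hN.equiv (ρ₀.baseChange B' z) = ρ₀' (h₀.equiv z) := by
  induction z using TensorProduct.induction_on with
  | zero => simp
  | tmul a x =>
    rw [LinearMap.baseChange_tmul, IsBaseChange.equiv_tmul, IsBaseChange.equiv_tmul, map_smul, hc]
  | add z w hz hw => rw [map_add, map_add, hz, hw, map_add, map_add]

/-- `H⁰` of a base-changed Čech pair (predicate form). -/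
noncomputable def h0EquivOfIsBaseChange (h₀ : IsBaseChange B' f₀) (h₁ : IsBaseChange B' f₁)
    (hN : IsBaseChange B' fN) (hc₀ : ∀ x, ρ₀' (f₀ x) = fN (ρ₀ x))
    (hc₁ : ∀ y, ρ₁' (f₁ y) = fN (ρ₁ y)) :
    H0 (ρ₀.baseChange B') (ρ₁.baseChange B') ≃ₗ[B'] H0 ρ₀' ρ₁' :=
  H0congr h₀.equiv h₁.equiv hN.equiv (isBaseChange_comm B' h₀ hN hc₀)
    (isBaseChange_comm B' h₁ hN hc₁)

/-- `H¹` of a base-changed Čech pair (predicate form). -/
noncomputable def h1EquivOfIsBaseChange (h₀ : IsBaseChange B' f₀) (h₁ : IsBaseChange B' f₁)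
    (hN : IsBaseChange B' fN) (hc₀ : ∀ x, ρ₀' (f₀ x) = fN (ρ₀ x))
    (hc₁ : ∀ y, ρ₁' (f₁ y) = fN (ρ₁ y)) :
    H1 (ρ₀.baseChange B') (ρ₁.baseChange B') ≃ₗ[B'] H1 ρ₀' ρ₁' :=
  H1congr h₀.equiv h₁.equiv hN.equiv (isBaseChange_comm B' h₀ hN hc₀)
    (isBaseChange_comm B' h₁ hN hc₁)

end Predicate

section FieldPredicate

variable {K : Type u} [Field K] (K' : Type u) [Field K'] [Algebra K K']
variable {M₀ M₁ N : Type u} [AddCommGroup M₀] [AddCommGroup M₁] [AddCommGroup N]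
variable [Module K M₀] [Module K M₁] [Module K N]
variable {M₀' M₁' N' : Type u} [AddCommGroup M₀'] [AddCommGroup M₁'] [AddCommGroup N']
variable [Module K M₀'] [Module K M₁'] [Module K N']
variable [Module K' M₀'] [Module K' M₁'] [Module K' N']
variable [IsScalarTower K K' M₀'] [IsScalarTower K K' M₁'] [IsScalarTower K K' N']
variable {ρ₀ : M₀ →ₗ[K] N} {ρ₁ : M₁ →ₗ[K] N} {ρ₀' : M₀' →ₗ[K'] N'} {ρ₁' : M₁' →ₗ[K'] N'}
variable {f₀ : M₀ →ₗ[K] M₀'} {f₁ : M₁ →ₗ[K] M₁'} {fN : N →ₗ[K] N'}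

/-- `h⁰` is invariant under extension of the base field (predicate form). -/
theorem finrank_H0_of_isBaseChange (h₀ : IsBaseChange K' f₀) (h₁ : IsBaseChange K' f₁)
    (hN : IsBaseChange K' fN) (hc₀ : ∀ x, ρ₀' (f₀ x) = fN (ρ₀ x))
    (hc₁ : ∀ y, ρ₁' (f₁ y) = fN (ρ₁ y)) :
    Module.finrank K' (H0 ρ₀' ρ₁') = Module.finrank K (H0 ρ₀ ρ₁) := by
  rw [← (h0EquivOfIsBaseChange K' h₀ h₁ hN hc₀ hc₁).finrank_eq, finrank_H0_baseChange]

/-- `h¹` is invariant under extension of the base field (predicate form). -/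
theorem finrank_H1_of_isBaseChange (h₀ : IsBaseChange K' f₀) (h₁ : IsBaseChange K' f₁)
    (hN : IsBaseChange K' fN) (hc₀ : ∀ x, ρ₀' (f₀ x) = fN (ρ₀ x))
    (hc₁ : ∀ y, ρ₁' (f₁ y) = fN (ρ₁ y)) :
    Module.finrank K' (H1 ρ₀' ρ₁') = Module.finrank K (H1 ρ₀ ρ₁) := by
  rw [← (h1EquivOfIsBaseChange K' h₀ h₁ hN hc₀ hc₁).finrank_eq, finrank_H1_baseChange]

/-- `H¹ = 0` is invariant under extension of the base field (predicate form). -/
theorem cechD_surjective_iff_of_isBaseChange (h₀ : IsBaseChange K' f₀) (h₁ : IsBaseChange K' f₁)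
    (hN : IsBaseChange K' fN) (hc₀ : ∀ x, ρ₀' (f₀ x) = fN (ρ₀ x))
    (hc₁ : ∀ y, ρ₁' (f₁ y) = fN (ρ₁ y)) :
    Function.Surjective (cechD ρ₀' ρ₁') ↔ Function.Surjective (cechD ρ₀ ρ₁) := by
  rw [← cechD_baseChange_surjective_iff K' ρ₀ ρ₁]
  rw [← LinearMap.range_eq_top, ← LinearMap.range_eq_top,
    ← Submodule.Quotient.subsingleton_iff, ← Submodule.Quotient.subsingleton_iff]
  exact (h1EquivOfIsBaseChange K' h₀ h₁ hN hc₀ hc₁).symm.toEquiv.subsingleton_congr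

end FieldPredicate

end Fermat.Agent.JAC.Cech.FlatBC67
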